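/-
NODAL, layer RIEM (architect helper155): R1: from the generic fibre to the `A`-lattices.

`KSec K F x n u k` (with `A := K = Frac A`, `P := F`) is the Riemann-Roch space of
`div u / n + k (x)_∞` on the generic fibre.
-/
import Fermat.Agent.Nodal.Kum.Defs
import Fermat.Agent.Nodal.RankFinite

set_option autoImplicit false

noncomputable section

namespace Fermat.Agent.Nodal

open Fermat.Agent.KLB

/-- The comparison of dimensions on the generic fibre:
`dim L(k (x)_∞) ≤ dim L(div u / n + k (x)_∞)` for all large `k`. -/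
def RiemK (K F : Type*) [Field K] [Field F] [Algebra K F] (x : F) (n : ℕ) (u : F) : Prop :=
  ∃ k₀ : ℕ, ∀ k, k₀ ≤ k → ∀ (r : ℕ) (c : Fin r → F), LinearIndependent K c →
    (∀ i, c i ∈ KSec K F x n 1 k) →
    ∃ b : Fin r → F, LinearIndependent K b ∧ ∀ i, b i ∈ KSec K F x n u k

variable {A K P F : Type*} [CommRing A] [IsDomain A] [IsDiscreteValuationRing A] [Field K]
  [Algebra A K] [IsFractionRing A K] [Field P] [Field F] [Algebra A P] [Algebra P F] [Algebra A F]
  [IsScalarTower A P F] [Algebra K F] [IsScalarTower A K F]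

theorem isIntegral_adjoin_field_of_isIntegral_mem (x : P) {c : P}
    (hc : c ∈ Algebra.adjoin A {x}) : algebraMap P F c ∈ Algebra.adjoin K {algebraMap P F x} := by
  induction hc using Algebra.adjoin_induction with
  | mem y hy =>
    rw [Set.mem_singleton_iff.1 hy]
    exact Algebra.subset_adjoin rfl
  | algebraMap a =>
    rw [← IsScalarTower.algebraMap_apply A P F, IsScalarTower.algebraMap_apply A K F]
    exact Subalgebra.algebraMap_mem _ _
  | add y z _ _ hy hz =>
    rw [map_add]
    exact add_mem hy hz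
  | mul y z _ _ hy hz =>
    rw [map_mul]
    exact mul_mem hy hz

variable (A K F) in
/-- The ring homomorphism `A[x] → K[x]`. -/
def isIntegral_adjoin_field_of_isIntegral_hom (x : P) :
    Algebra.adjoin A {x} →+* Algebra.adjoin K {algebraMap P F x} :=
  ((algebraMap P F).comp (Algebra.adjoin A {x}).val.toRingHom).codRestrict
    (Algebra.adjoin K {algebraMap P F x})
    (fun c => isIntegral_adjoin_field_of_isIntegral_mem x c.2)

theorem isIntegral_adjoin_field_of_isIntegral_comp (x : P) :
    (algebraMap (Algebra.adjoin K {algebraMap P F x}) F).comp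
      (isIntegral_adjoin_field_of_isIntegral_hom A K F x) =
      algebraMap (Algebra.adjoin A {x}) F := rfl

/-- R1a.  Integral over `A[x]` implies integral over `K[x]`. -/
theorem isIntegral_adjoin_field_of_isIntegral (x : P) {z : F}
    (hz : IsIntegral (Algebra.adjoin A {x}) z) :
    IsIntegral (Algebra.adjoin K {algebraMap P F x}) z := by
  obtain ⟨p, hp, hpe⟩ := hz
  refine ⟨p.map (isIntegral_adjoin_field_of_isIntegral_hom A K F x), hp.map _, ?_⟩
  rw [Polynomial.eval₂_map, isIntegral_adjoin_field_of_isIntegral_comp]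
  exact hpe

theorem exists_smul_isIntegral_adjoin_denom (x : P) {c : F}
    (hc : c ∈ Algebra.adjoin K {algebraMap P F x}) :
    ∃ a : A, a ≠ 0 ∧ ∃ c' : Algebra.adjoin A {x}, algebraMap A F a * c = algebraMap P F c' := by
  induction hc using Algebra.adjoin_induction with
  | mem y hy =>
    rw [Set.mem_singleton_iff.1 hy]
    exact ⟨1, one_ne_zero, ⟨x, Algebra.subset_adjoin rfl⟩, by rw [map_one, one_mul]⟩
  | algebraMap k =>
    obtain ⟨⟨n, d⟩, hnd⟩ := IsLocalization.surj (nonZeroDivisors A) k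
    refine ⟨d, nonZeroDivisors.ne_zero d.2, algebraMap A _ n, ?_⟩
    show _ = algebraMap P F (algebraMap A P n)
    rw [← IsScalarTower.algebraMap_apply A P F, IsScalarTower.algebraMap_apply A K F,
      IsScalarTower.algebraMap_apply A K F, ← map_mul, mul_comm]
    exact congrArg _ hnd
  | add y z _ _ hy hz =>
    obtain ⟨a₁, h₁, c₁, e₁⟩ := hy
    obtain ⟨a₂, h₂, c₂, e₂⟩ := hz
    refine ⟨a₁ * a₂, mul_ne_zero h₁ h₂, algebraMap A _ a₂ * c₁ + algebraMap A _ a₁ * c₂, ?_⟩
    show _ = algebraMap P F (algebraMap A P a₂ * (c₁ : P) + algebraMap A P a₁ * (c₂ : P))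
    simp only [map_add, map_mul, ← e₁, ← e₂, ← IsScalarTower.algebraMap_apply A P F]
    ring
  | mul y z _ _ hy hz =>
    obtain ⟨a₁, h₁, c₁, e₁⟩ := hy
    obtain ⟨a₂, h₂, c₂, e₂⟩ := hz
    refine ⟨a₁ * a₂, mul_ne_zero h₁ h₂, c₁ * c₂, ?_⟩
    show _ = algebraMap P F ((c₁ : P) * (c₂ : P))
    simp only [map_mul, ← e₁, ← e₂]
    ring

/-- R1b.  Clearing denominators: an element which is integral over `K[x]` becomes integral over
`A[x]` after multiplication by a nonzero element of `A`; the set of such multipliers is stable under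
multiplication by `A`. -/
theorem exists_smul_isIntegral_adjoin (x : P) {z : F}
    (hz : IsIntegral (Algebra.adjoin K {algebraMap P F x}) z) :
    ∃ a : A, a ≠ 0 ∧ ∀ a' : A, IsIntegral (Algebra.adjoin A {x}) (algebraMap A F (a' * a) * z) := by
  classical
  obtain ⟨p, hp, hpe⟩ := hz
  set φ := isIntegral_adjoin_field_of_isIntegral_hom A K F x with hφ
  choose d hd0 c hc using fun i => exists_smul_isIntegral_adjoin_denom (A := A) x (p.coeff i).2
  set a : A := ∏ i ∈ p.support, d i with ha
  have ha0 : a ≠ 0 := Finset.prod_ne_zero_iff.2 fun i _ => hd0 i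
  set α : Algebra.adjoin K {algebraMap P F x} := algebraMap A _ a with hα
  have hαF : algebraMap (Algebra.adjoin K {algebraMap P F x}) F α = algebraMap A F a := by
    rw [hα, ← IsScalarTower.algebraMap_apply]
  -- `α * coeff i` lies in the range of `φ`
  have hrange : ∀ i, α * p.coeff i ∈ Set.range φ := by
    intro i
    by_cases hi : i ∈ p.support
    · refine ⟨algebraMap A _ (∏ j ∈ p.support.erase i, d j) * c i, Subtype.ext ?_⟩
      have h1 : a = (∏ j ∈ p.support.erase i, d j) * d i := by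
        rw [ha, Finset.prod_erase_mul _ _ hi]
      show algebraMap P F (algebraMap A P (∏ j ∈ p.support.erase i, d j) * (c i : P)) =
        algebraMap A F a * (p.coeff i : F)
      rw [map_mul, ← hc i, ← IsScalarTower.algebraMap_apply, h1, map_mul]
      ring
    · rw [Polynomial.notMem_support_iff.1 hi, mul_zero]
      exact ⟨0, map_zero _⟩
  have hαrange : ∀ m : ℕ, α ^ m ∈ Set.range φ := by
    intro m
    refine ⟨algebraMap A _ (a ^ m), Subtype.ext ?_⟩
    show algebraMap P F (algebraMap A P (a ^ m)) = (algebraMap A F a) ^ m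
    rw [← IsScalarTower.algebraMap_apply, map_pow]
  have hlift : p.scaleRoots α ∈ Polynomial.lifts φ := by
    rw [Polynomial.lifts_iff_coeff_lifts]
    intro i
    rw [Polynomial.coeff_scaleRoots]
    rcases lt_trichotomy i p.natDegree with hi | hi | hi
    · obtain ⟨m, hm⟩ : ∃ m, p.natDegree - i = m + 1 := ⟨p.natDegree - i - 1, by omega⟩
      obtain ⟨r₁, hr₁⟩ := hrange i
      obtain ⟨r₂, hr₂⟩ := hαrange m
      refine ⟨r₁ * r₂, ?_⟩
      rw [map_mul, hr₁, hr₂, hm, pow_succ]
      ring
    · rw [hi, hp.coeff_natDegree, Nat.sub_self, pow_zero, mul_one]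
      exact ⟨1, map_one _⟩
    · rw [Polynomial.coeff_eq_zero_of_natDegree_lt hi, zero_mul]
      exact ⟨0, map_zero _⟩
  obtain ⟨q, hq, -, hqm⟩ := Polynomial.lifts_and_natDegree_eq_and_monic hlift
    ((Polynomial.monic_scaleRoots_iff α).2 hp)
  have hint : IsIntegral (Algebra.adjoin A {x}) (algebraMap A F a * z) := by
    refine ⟨q, hqm, ?_⟩
    rw [← isIntegral_adjoin_field_of_isIntegral_comp (K := K) x, ← Polynomial.eval₂_map, ← hφ, hq,
      ← hαF]
    exact Polynomial.scaleRoots_eval₂_eq_zero _ hpe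
  refine ⟨a, ha0, fun a' => ?_⟩
  rw [map_mul, mul_assoc, IsScalarTower.algebraMap_apply A (Algebra.adjoin A {x}) F]
  exact isIntegral_algebraMap.mul hint

/-- R1c. -/
theorem exists_smul_mem_KSec (x : P) (n : ℕ) (hn : 0 < n) (u : F) (k : ℕ) {f : F}
    (hf : f ∈ KSec K F (algebraMap P F x) n u k) :
    ∃ a : A, a ≠ 0 ∧ algebraMap A F a * f ∈ KSec A F x n u k := by
  obtain ⟨h1, h2⟩ := hf
  obtain ⟨m, rfl⟩ : ∃ m, n = m + 1 := ⟨n - 1, by omega⟩
  rw [← map_inv₀] at h2
  obtain ⟨a₁, ha₁, H₁⟩ := exists_smul_isIntegral_adjoin (A := A) x h1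
  obtain ⟨a₂, ha₂, H₂⟩ := exists_smul_isIntegral_adjoin (A := A) x⁻¹ h2
  refine ⟨a₁ * a₂, mul_ne_zero ha₁ ha₂, ?_, ?_⟩
  · have e : (algebraMap A F (a₁ * a₂) * f) ^ (m + 1) * u =
        algebraMap A F (a₁ ^ m * a₂ ^ (m + 1) * a₁) * (f ^ (m + 1) * u) := by
      simp only [map_mul, map_pow]
      ring
    rw [e]
    exact H₁ _
  · have e : ((algebraMap P F x)⁻¹ ^ k * (algebraMap A F (a₁ * a₂) * f)) ^ (m + 1) * u =
        algebraMap A F (a₁ ^ (m + 1) * a₂ ^ m * a₂) *
          (((algebraMap F F (algebraMap P F x))⁻¹ ^ k * f) ^ (m + 1) * u) := by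
      simp only [map_mul, map_pow, Algebra.algebraMap_self, RingHom.id_apply]
      ring
    rw [e]
    exact H₂ _

/-- **R1.** -/
theorem riem_of_riemK [FiniteDimensional P F] [Algebra.IsSeparable P F] {x : P}
    (hx : IsCoord A x) (n : ℕ) (hn : 0 < n) (u : F)
    (h : RiemK K F (algebraMap P F x) n u) : Riem A F x n u := by
  obtain ⟨k₀, hk₀⟩ := h
  refine ⟨k₀, fun k hk => ?_⟩
  obtain ⟨c', hc'⟩ := exists_linearIndependent_of_le_finrank
    (le_refl (Module.finrank A (Sec A F x k)))
  have hcA : LinearIndependent A (fun i => (c' i : F)) :=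
    hc'.map' (Submodule.subtype _) (Submodule.ker_subtype _)
  have hcK : LinearIndependent K (fun i => (c' i : F)) :=
    (LinearIndependent.iff_fractionRing A K).1 hcA
  have hmem : ∀ i, (c' i : F) ∈ KSec K F (algebraMap P F x) n 1 k := by
    intro i
    refine ⟨?_, ?_⟩
    · rw [mul_one]
      exact (isIntegral_adjoin_field_of_isIntegral (K := K) x (c' i).2.1).pow n
    · rw [mul_one]
      have h2 := isIntegral_adjoin_field_of_isIntegral (K := K) x⁻¹ (c' i).2.2
      rw [map_inv₀] at h2
      exact h2.pow n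
  obtain ⟨b, hb1, hb2⟩ := hk₀ k hk _ _ hcK hmem
  choose a ha0 ha using fun i => exists_smul_mem_KSec (A := A) (K := K) x n hn u k (hb2 i)
  refine ⟨fun i => algebraMap A F (a i) * b i, ?_, ha⟩
  rw [LinearIndependent.iff_fractionRing A K]
  have hne : ∀ i, algebraMap A K (a i) ≠ 0 := fun i h0 =>
    ha0 i ((IsFractionRing.injective A K) (by rw [h0, map_zero]))
  have h3 := hb1.units_smul (fun i => Units.mk0 (algebraMap A K (a i)) (hne i))
  have e : (fun i => algebraMap A F (a i) * b i) =
      (fun i => Units.mk0 (algebraMap A K (a i)) (hne i)) • b := by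
    funext i
    rw [Pi.smul_apply', Units.smul_mk0, Algebra.smul_def, ← IsScalarTower.algebraMap_apply]
  rw [e]
  exact h3

end Fermat.Agent.Nodal

end
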