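/-
NODAL, layer RIEM (architect helper155): R2: Riemann's theorem over an algebraically closed field, in
the language of `KSec` (on top of helper94's `S34/Nodal/Riem.lean`).
-/
import Fermat.Agent.Nodal.Riem.Abs
import Fermat.Agent.S34.Nodal.Riem

set_option autoImplicit false

noncomputable section

namespace Fermat.Agent.Nodal

open AlgebraicCurve Fermat.Agent.S24.FF Fermat.Agent.S27.Riemann Module

variable {K F : Type*} [Field K] [Field F] [Algebra K F] [CharZero K] [IsAlgClosed K] [IsFF1 K F]

/-- R2a: `KSec` is a Riemann-Roch space (`S34.Nodal.mem_riemannRochSpace_kumDiv`,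
`S18.mem_chart_top_iff_places`, `S18.mem_chart_top_iff_isIntegral`; compare
`S34.Nodal.Setup.ChartsByPlaces.of_isIntegral`). -/
theorem mem_riemannRochSpace_kumDiv_iff_mem_KSec {n : ℕ} (hn : 0 < n) {u x : F} (hu0 : u ≠ 0)
    (hx : Transcendental K x) (hu : ∀ v : Place K F, (n : ℤ) ∣ v.ord u) (k : ℕ) (y : F) :
    y ∈ riemannRochSpace (S34.Nodal.kumDiv (K := K) n u x k) ↔ y ∈ KSec K F x n u k := by
  have hx0 : x ≠ 0 := by
    rintro rfl
    exact hx isAlgebraic_zero
  have hx' : Transcendental K x⁻¹ := by
    intro h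
    apply hx
    have := h.inv
    rwa [inv_inv] at this
  have hf : FiniteDimensional (IntermediateField.adjoin K {x}) F := IsFF1.finite _ hx
  have hf' : FiniteDimensional (IntermediateField.adjoin K {x⁻¹}) F := IsFF1.finite _ hx'
  rw [S34.Nodal.mem_riemannRochSpace_kumDiv hn hu0 hx0 hu, mem_KSec,
    ← S18.mem_chart_top_iff_isIntegral, S18.mem_chart_top_iff_places hx,
    ← S18.mem_chart_top_iff_isIntegral, S18.mem_chart_top_iff_places hx']
  simp only [Place.ord_inv, Left.nonneg_neg_iff, Algebra.algebraMap_self, RingHom.id_apply]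

/-- R2b: the Riemann-Roch spaces are finite dimensional. -/
theorem finiteDimensional_riemannRochSpace_kumDiv (n : ℕ) (u x : F) (k : ℕ) :
    FiniteDimensional K (riemannRochSpace (S34.Nodal.kumDiv (K := K) n u x k)) := by
  by_cases hF : ∃ t : F, Transcendental K t
  · exact finite_L hF _
  · have hsurj : Function.Surjective (Algebra.linearMap K F) := fun f => by
      rcases exists_const_or_transcendental (K := K) f with ⟨c, rfl⟩ | h
      · exact ⟨c, rfl⟩
      · exact absurd ⟨f, h⟩ hF
    have : Module.Finite K F := Module.Finite.of_surjective (Algebra.linearMap K F) hsurj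
    infer_instance

/-- **R2**: for large `k` the maximal number of linearly independent elements of `KSec K F x n u k`
does not depend on the Kummer element `u`. -/
theorem exists_forall_indep_KSec {x : F} (hx : Transcendental K x) :
    ∃ k₀ : ℕ, ∀ k, k₀ ≤ k → ∀ n : ℕ, 0 < n → ∀ u u' : F, u ≠ 0 → u' ≠ 0 →
      (∀ v : Place K F, (n : ℤ) ∣ v.ord u) → (∀ v : Place K F, (n : ℤ) ∣ v.ord u') →
      ∀ (r : ℕ) (c : Fin r → F), LinearIndependent K c → (∀ i, c i ∈ KSec K F x n u k) →
        ∃ b : Fin r → F, LinearIndependent K b ∧ ∀ i, b i ∈ KSec K F x n u' k := by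
  obtain ⟨k₀, hk₀⟩ := S34.Nodal.exists_finrank_kumDiv_eq (K := K) hx
  refine ⟨k₀, fun k hk n hn u u' hu0 hu0' hu hu' r c hc hcmem => ?_⟩
  have hfin := finiteDimensional_riemannRochSpace_kumDiv (K := K) n u x k
  have hfin' := finiteDimensional_riemannRochSpace_kumDiv (K := K) n u' x k
  -- the family `c` inside the Riemann-Roch space
  let c' : Fin r → riemannRochSpace (S34.Nodal.kumDiv (K := K) n u x k) := fun i =>
    ⟨c i, (mem_riemannRochSpace_kumDiv_iff_mem_KSec hn hu0 hx hu k (c i)).2 (hcmem i)⟩
  have hc' : LinearIndependent K c' :=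
    LinearIndependent.of_comp (riemannRochSpace (S34.Nodal.kumDiv (K := K) n u x k)).subtype hc
  have hr : r ≤ finrank K (riemannRochSpace (S34.Nodal.kumDiv (K := K) n u' x k)) := by
    rw [← hk₀ k hk n hn u u' hu hu']
    simpa using hc'.fintype_card_le_finrank
  obtain ⟨b', hb'⟩ := exists_linearIndependent_of_le_finrank hr
  refine ⟨fun i => (b' i : F), ?_, fun i => ?_⟩
  · exact hb'.map' (riemannRochSpace (S34.Nodal.kumDiv (K := K) n u' x k)).subtype
      (Submodule.ker_subtype _)
  · exact (mem_riemannRochSpace_kumDiv_iff_mem_KSec hn hu0' hx hu' k _).1 (b' i).2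

end Fermat.Agent.Nodal

end
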