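/-
NODAL, layer RIEM (architect helper155): R3: descent of the Riemann-Roch spaces from `ℚ̄` to a subfield
`K` (abstract type with `[Algebra K Kbar]`), for the fields `FK K N ⊆ K((q))`.
-/
import Fermat.Agent.Nodal.Riem.Bar
import Fermat.Agent.S18.ModDefs
import Fermat.Agent.S18.Descent.Union
import Fermat.Agent.S18.Descent.Indep
import Fermat.Agent.S18.Descent.Chart
import Fermat.Agent.GAL.E.Defs
import Fermat.Agent.S24.Export.Ramification
import Fermat.Agent.Nodal.Kum.Ext
import Fermat.Agent.S18.Places.Dedekind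

set_option autoImplicit false

noncomputable section

namespace Fermat.Agent.Nodal

open ModularCurve AlgebraicCurve Fermat.Agent.S24 Fermat.Agent.S18 Fermat.Agent.S18.Descent

theorem galois_descent_series_coeffMap_smul {K L : Type*} [Field K] [Field L] (φ : K →+* L) (c : K)
    (y : LaurentSeries K) : coeffMap φ (c • y) = φ c • coeffMap φ y := by
  ext k
  simp [HahnSeries.coeff_smul]

theorem galois_descent_series_fix {K : Type*} [Field K] [Algebra K Kbar] (σ : Kbar ≃ₐ[K] Kbar)
    (f : LaurentSeries K) :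
    coeffMap (σ : Kbar →+* Kbar) (coeffMap (algebraMap K Kbar) f) =
      coeffMap (algebraMap K Kbar) f := by
  rw [coeffMap_coeffMap]
  refine coeffMap_congr ?_ f
  ext a
  exact σ.commutes a

/-- R3a (generalises `S37.QA.galois_descent` from `ℚ` to `K`; trace argument).  Galois descent for
subspaces of `ℚ̄((q))`. -/
theorem galois_descent_series {K : Type*} [Field K] [CharZero K] [Algebra K Kbar]
    [Algebra.IsAlgebraic K Kbar]
    (V : Submodule K (LaurentSeries K)) (W : Submodule Kbar (LaurentSeries Kbar))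
    (hW : ∀ (σ : Kbar ≃ₐ[K] Kbar) (z : LaurentSeries Kbar), z ∈ W →
      coeffMap (σ : Kbar →+* Kbar) z ∈ W)
    {z : LaurentSeries Kbar}
    (hz : z ∈ Submodule.span Kbar (⇑(coeffMap (algebraMap K Kbar)) '' (V : Set (LaurentSeries K))))
    (hzW : z ∈ W) :
    z ∈ Submodule.span Kbar
      (⇑(coeffMap (algebraMap K Kbar)) '' {f | f ∈ V ∧ coeffMap (algebraMap K Kbar) f ∈ W}) := by
  classical
  have hcl : IsAlgClosure K Kbar := ⟨inferInstance, inferInstance⟩
  have hnorm : Normal K Kbar := IsAlgClosure.normal K Kbar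
  have hint : Algebra.IsIntegral K Kbar := inferInstance
  obtain ⟨n, c, g, hg⟩ := (Submodule.mem_span_set').1 hz
  have hg' : ∀ i, ∃ f : LaurentSeries K, f ∈ V ∧
      coeffMap (algebraMap K Kbar) f = (g i : LaurentSeries Kbar) := fun i => (g i).2
  choose f hfV hfg using hg'
  have hzsum : z = ∑ i, c i • coeffMap (algebraMap K Kbar) (f i) := by
    rw [← hg]
    exact Finset.sum_congr rfl fun i _ => by rw [hfg]
  -- the finite extension generated by the coefficients
  let K' : IntermediateField K Kbar := IntermediateField.adjoin K (Set.range c)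
  have : Finite (Set.range c) := (Set.finite_range c).to_subtype
  have hfd : FiniteDimensional K K' :=
    IntermediateField.finiteDimensional_adjoin fun x _ => Algebra.IsIntegral.isIntegral x
  let c' : Fin n → K' := fun i => ⟨c i, IntermediateField.subset_adjoin K _ ⟨i, rfl⟩⟩
  let b := Module.finBasis K K'
  let bd := (Algebra.traceForm K K').dualBasis (traceForm_nondegenerate K K') b
  have hexp : ∀ x : K', x = ∑ m, Algebra.trace K K' (x * b m) • bd m := by
    intro x
    conv_lhs => rw [← bd.sum_repr x]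
    refine Finset.sum_congr rfl fun m _ => ?_
    rw [LinearMap.BilinForm.dualBasis_repr_apply, Algebra.traceForm_apply]
  let σ : (K' →ₐ[K] Kbar) → (Kbar ≃ₐ[K] Kbar) := fun τ =>
    AlgEquiv.ofBijective (τ.liftNormal Kbar) (Algebra.IsAlgebraic.algHom_bijective _)
  have hσ : ∀ (τ : K' →ₐ[K] Kbar) (x : K'), σ τ (x : Kbar) = τ x := fun τ x =>
    AlgHom.liftNormal_commutes τ Kbar x
  -- the descended vectors
  let gg : Fin (Module.finrank K K') → LaurentSeries K :=
    fun m => ∑ i, Algebra.trace K K' (c' i * b m) • f i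
  have hggV : ∀ m, gg m ∈ V := fun m =>
    Submodule.sum_mem _ fun i _ => Submodule.smul_mem _ _ (hfV i)
  have hemb : ∀ m, coeffMap (algebraMap K Kbar) (gg m) =
      ∑ i, algebraMap K Kbar (Algebra.trace K K' (c' i * b m)) •
        coeffMap (algebraMap K Kbar) (f i) := by
    intro m
    rw [map_sum]
    exact Finset.sum_congr rfl fun i _ => galois_descent_series_coeffMap_smul _ _ _
  have hggW : ∀ m, coeffMap (algebraMap K Kbar) (gg m) ∈ W := by
    intro m
    have hT : ∑ τ : K' →ₐ[K] Kbar, (σ τ (b m : Kbar)) •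
        coeffMap ((σ τ : Kbar ≃ₐ[K] Kbar) : Kbar →+* Kbar) z ∈ W :=
      Submodule.sum_mem _ fun τ _ => Submodule.smul_mem _ _ (hW _ _ hzW)
    have hEq : ∑ τ : K' →ₐ[K] Kbar,
        (σ τ (b m : Kbar)) • coeffMap ((σ τ : Kbar ≃ₐ[K] Kbar) : Kbar →+* Kbar) z =
          coeffMap (algebraMap K Kbar) (gg m) := by
      rw [hemb m]
      have h1 : ∀ τ : K' →ₐ[K] Kbar,
          (σ τ (b m : Kbar)) • coeffMap ((σ τ : Kbar ≃ₐ[K] Kbar) : Kbar →+* Kbar) z =
            ∑ i, τ (c' i * b m) • coeffMap (algebraMap K Kbar) (f i) := by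
        intro τ
        rw [hzsum, map_sum, Finset.smul_sum]
        refine Finset.sum_congr rfl fun i _ => ?_
        rw [galois_descent_series_coeffMap_smul, galois_descent_series_fix, smul_smul, hσ]
        have : ((σ τ : Kbar ≃ₐ[K] Kbar) : Kbar →+* Kbar) (c i) = τ (c' i) := hσ τ (c' i)
        rw [this, map_mul, mul_comm]
      rw [Finset.sum_congr rfl fun τ _ => h1 τ, Finset.sum_comm]
      refine Finset.sum_congr rfl fun i _ => ?_
      rw [← Finset.sum_smul, trace_eq_sum_embeddings Kbar]
    rw [← hEq]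
    exact hT
  have hfinal : z = ∑ m, (bd m : Kbar) • coeffMap (algebraMap K Kbar) (gg m) := by
    have h2 : ∀ i, c i =
        ∑ m, algebraMap K Kbar (Algebra.trace K K' (c' i * b m)) * (bd m : Kbar) := by
      intro i
      have h3 := congrArg (fun x : K' => (x : Kbar)) (hexp (c' i))
      simp only [AddSubmonoidClass.coe_finsetSum] at h3
      rw [show c i = ((c' i : K') : Kbar) from rfl, h3]
      refine Finset.sum_congr rfl fun m _ => ?_
      rw [IntermediateField.coe_smul, Algebra.smul_def]
    rw [hzsum]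
    simp_rw [hemb, Finset.smul_sum, smul_smul]
    rw [Finset.sum_comm]
    refine Finset.sum_congr rfl fun i _ => ?_
    rw [← Finset.sum_smul]
    congr 1
    rw [h2 i]
    exact Finset.sum_congr rfl fun m _ => mul_comm _ _
  rw [hfinal]
  exact Submodule.sum_mem _ fun m _ => Submodule.smul_mem _ _
    (Submodule.subset_span ⟨gg m, ⟨hggV m, hggW m⟩, rfl⟩)

variable {K : Type*} [Field K] [Algebra ℚ K] [Algebra K Kbar] (N : ℕ)

/-- The base change map `FK K N → FN N`. -/
abbrev bcBar : FK K N →+* FN N := baseChangeMap (modularFunctionFieldFull N) (algebraMap K Kbar)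

/-- the span of the image of `bcBar` is closed under multiplication. -/
theorem mem_span_bcBar_mul {x y : FN N}
    (hx : x ∈ Submodule.span Kbar (Set.range (bcBar (K := K) N)))
    (hy : y ∈ Submodule.span Kbar (Set.range (bcBar (K := K) N))) :
    x * y ∈ Submodule.span Kbar (Set.range (bcBar (K := K) N)) := by
  have h1 := Submodule.mul_mem_mul hx hy
  rw [Submodule.span_mul_span] at h1
  refine Submodule.span_mono ?_ h1
  rintro _ ⟨_, ⟨a, rfl⟩, _, ⟨b, rfl⟩, rfl⟩
  exact ⟨a * b, map_mul _ _ _⟩

/-- constants are integral over the image of `bcBar`. -/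
theorem mem_span_bcBar_isIntegral (a : Kbar) :
    (bcBar (K := K) N).IsIntegralElem (algebraMap Kbar (FN N) a) := by
  have hint : IsIntegral ℚ a := by
    have h : (DivisionRing.toRatAlgebra : Algebra ℚ (AlgebraicClosure ℚ)) =
      AlgebraicClosure.instAlgebra ℚ := Subsingleton.elim _ _
    have : Algebra.IsIntegral ℚ (AlgebraicClosure ℚ) := by
      rw [h]
      infer_instance
    exact Algebra.IsIntegral.isIntegral a
  obtain ⟨P, hP, hPa⟩ := hint
  refine ⟨P.map ((algebraMap K (FK K N)).comp (algebraMap ℚ K)), hP.map _, ?_⟩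
  rw [Polynomial.eval₂_map]
  have h1 : (bcBar (K := K) N).comp ((algebraMap K (FK K N)).comp (algebraMap ℚ K)) =
      (algebraMap Kbar (FN N)).comp (algebraMap ℚ Kbar) := Subsingleton.elim _ _
  rw [h1, ← Polynomial.hom_eval₂, hPa, map_zero]

/-- R3b: `FN N` is spanned over `ℚ̄` by the image of `FK K N` (the span is a `ℚ̄`-subalgebra which is
algebraic over the field `bcBar (FK K N)`, hence a field; it contains the generators). -/
theorem mem_span_bcBar (z : FN N) :
    z ∈ Submodule.span Kbar (Set.range (bcBar (K := K) N)) := by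
  let _ : Algebra (FK K N) (FN N) := (bcBar (K := K) N).toAlgebra
  let R : Subalgebra (FK K N) (FN N) :=
    Algebra.adjoin (FK K N) (Set.range (algebraMap Kbar (FN N)))
  -- `R` is contained in the span
  have hR : ∀ x ∈ R, x ∈ Submodule.span Kbar (Set.range (bcBar (K := K) N)) := by
    intro x hx
    induction hx using Algebra.adjoin_induction with
    | mem x hx =>
      obtain ⟨a, rfl⟩ := hx
      have : algebraMap Kbar (FN N) a = a • bcBar (K := K) N 1 := by
        rw [map_one, Algebra.smul_def, mul_one]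
      rw [this]
      exact Submodule.smul_mem _ _ (Submodule.subset_span ⟨1, rfl⟩)
    | algebraMap f => exact Submodule.subset_span ⟨f, rfl⟩
    | add x y _ _ hx hy => exact add_mem hx hy
    | mul x y _ _ hx hy => exact mem_span_bcBar_mul N hx hy
  -- `R` is integral over `FK K N`
  have hint : Algebra.IsIntegral (FK K N) R := by
    refine Algebra.IsIntegral.adjoin ?_
    rintro _ ⟨a, rfl⟩
    exact mem_span_bcBar_isIntegral N a
  have hinv : ∀ x ∈ R, x⁻¹ ∈ R := by
    intro x hx
    have h1 : IsIntegral (FK K N) (⟨x, hx⟩ : R) := Algebra.IsIntegral.isIntegral _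
    have h2 : IsAlgebraic (FK K N) (((⟨x, hx⟩ : R) : FN N)) :=
      (h1.map R.val).isAlgebraic
    exact R.inv_mem_of_algebraic (x := ⟨x, hx⟩) h2
  -- every element lies in `R`
  have key : ∀ x : LaurentSeries Kbar, x ∈ laurentBaseChange Kbar (modularFunctionFieldFull N) →
      ∃ y : FN N, y ∈ R ∧ (y : LaurentSeries Kbar) = x := by
    intro x hx
    rw [mem_laurentBaseChange_iff] at hx
    induction hx using Subfield.closure_induction with
    | mem y hy =>
      rcases hy with ⟨a, rfl⟩ | ⟨w, hw, rfl⟩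
      · exact ⟨algebraMap Kbar (FN N) a, Algebra.subset_adjoin ⟨a, rfl⟩, rfl⟩
      · exact ⟨algebraMap (FK K N) (FN N) ⟨coeffEmb K w, coeffEmb_mem_laurentBaseChange K hw⟩,
          R.algebraMap_mem _, coeffMap_coeffEmb' (algebraMap K Kbar) w⟩
    | one => exact ⟨1, R.one_mem, rfl⟩
    | add x y _ _ hx hy =>
      obtain ⟨x', hx1, rfl⟩ := hx
      obtain ⟨y', hy1, rfl⟩ := hy
      exact ⟨x' + y', R.add_mem hx1 hy1, AddMemClass.coe_add _ _ _⟩
    | neg x _ hx =>
      obtain ⟨x', hx1, rfl⟩ := hx
      exact ⟨-x', R.neg_mem hx1, NegMemClass.coe_neg _⟩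
    | inv x _ hx =>
      obtain ⟨x', hx1, rfl⟩ := hx
      exact ⟨x'⁻¹, hinv _ hx1, IntermediateField.coe_inv _ _⟩
    | mul x y _ _ hx hy =>
      obtain ⟨x', hx1, rfl⟩ := hx
      obtain ⟨y', hy1, rfl⟩ := hy
      exact ⟨x' * y', R.mul_mem hx1 hy1, MulMemClass.coe_mul _ _ _⟩
  obtain ⟨y, hy, hyz⟩ := key z.1 z.2
  have : y = z := Subtype.ext hyz
  rw [← this]
  exact hR _ hy

/-- R3c: linear independence is preserved (`S18.Descent.coeffLin`). -/
theorem linearIndependent_bcBar {r : ℕ} {c : Fin r → FK K N} (hc : LinearIndependent K c) :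
    LinearIndependent Kbar (fun i => bcBar N (c i)) := by
  rw [Fintype.linearIndependent_iff] at hc ⊢
  intro a ha i
  rw [← Module.forall_dual_apply_eq_zero_iff K]
  intro lam
  refine hc (fun j => lam (a j)) ?_ i
  apply Subtype.ext
  have h1 : ∑ j, coeffMap (algebraMap K Kbar) ((c j : FK K N) : LaurentSeries K) *
      algebraMap Kbar (LaurentSeries Kbar) (a j) = 0 := by
    have h2 : ((∑ j, a j • bcBar N (c j) : FN N) : LaurentSeries Kbar) = 0 := by
      rw [ha]; rfl
    rw [← h2, AddSubmonoidClass.coe_finsetSum]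
    refine Finset.sum_congr rfl fun j _ => ?_
    rw [mul_comm, ← Algebra.smul_def]
    rfl
  have h3 := congrArg (coeffLin lam) h1
  rw [coeffLin_sum, coeffLin_zero] at h3
  rw [AddSubmonoidClass.coe_finsetSum, ZeroMemClass.coe_zero, ← h3]
  refine Finset.sum_congr rfl fun j _ => ?_
  rw [coeffLin_mul, coeffLin_algebraMap, mul_comm, ← Algebra.smul_def]
  rfl

/-- `ℚ̄` is algebraic over `K`. -/
theorem mem_KSec_bcBar_iff_isAlgebraic (K : Type*) [Field K] [Algebra ℚ K] [Algebra K Kbar] :
    Algebra.IsAlgebraic K Kbar := by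
  have h1 : IsScalarTower ℚ K Kbar := IsScalarTower.of_algebraMap_eq' (RingHom.ext_rat _ _)
  have h2 : Algebra.IsAlgebraic ℚ Kbar := AlgebraicClosure.isAlgebraic ℚ
  exact Algebra.IsAlgebraic.tower_top (K := ℚ) K

/-- integrality over `K[x]` can be tested over `ℚ̄`. -/
theorem mem_KSec_bcBar_iff_isIntegral (x z : FK K N) :
    IsIntegral (Algebra.adjoin Kbar {bcBar N x}) (bcBar N z) ↔
      IsIntegral (Algebra.adjoin K {x}) z := by
  have halg := mem_KSec_bcBar_iff_isAlgebraic K
  rw [← mem_chart_top_iff_isIntegral, ← mem_chart_top_iff_isIntegral]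
  exact (mem_chart_top_descent (bcBar (K := K) N)
    (fun c => baseChangeMap_algebraMap (algebraMap K Kbar) c) x z).symm

/-- R3d: integrality over `K[x]` can be tested over `ℚ̄` (`S18.Descent.mem_chart_top_descent`,
`S18.mem_chart_top_iff_isIntegral`). -/
theorem mem_KSec_bcBar_iff (x : FK K N) (n : ℕ) (u : FK K N) (k : ℕ) (f : FK K N) :
    bcBar N f ∈ KSec Kbar (FN N) (bcBar N x) n (bcBar N u) k ↔ f ∈ KSec K (FK K N) x n u k := by
  rw [mem_KSec, mem_KSec]
  simp only [Algebra.algebraMap_self, RingHom.id_apply]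
  rw [← map_pow, ← map_mul, mem_KSec_bcBar_iff_isIntegral, ← map_inv₀, ← map_pow, ← map_mul,
    ← map_pow, ← map_mul, mem_KSec_bcBar_iff_isIntegral]

/-- `galF` fixes the functions defined over `K`. -/
theorem galF_mem_KSec_bcBar (σ : GAL.E.GQ)
    (hσ : ∀ a : K, σ (algebraMap K Kbar a) = algebraMap K Kbar a) (y : FK K N) :
    GAL.E.galF N σ (bcBar N y) = bcBar N y := by
  apply Subtype.ext
  rw [GAL.E.coe_galF, coe_baseChangeMap, coeffMap_coeffMap]
  exact coeffMap_congr (RingHom.ext hσ) _

/-- R3e: `KSec` over `ℚ̄` is stable under the automorphisms of `ℚ̄ / K`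
(`GAL.E.galF`, `Nodal.isIntegral_adjoin_map_iff`). -/
theorem galF_mem_KSec (x : FK K N) (n : ℕ) (u : FK K N) (k : ℕ) (σ : GAL.E.GQ)
    (hσ : ∀ a : K, σ (algebraMap K Kbar a) = algebraMap K Kbar a) {y : FN N}
    (hy : y ∈ KSec Kbar (FN N) (bcBar N x) n (bcBar N u) k) :
    GAL.E.galF N σ y ∈ KSec Kbar (FN N) (bcBar N x) n (bcBar N u) k := by
  rw [mem_KSec] at hy ⊢
  have hx := galF_mem_KSec_bcBar N σ hσ x
  have hu := galF_mem_KSec_bcBar N σ hσ u
  have hA : ∀ a : Kbar, ∃ a' : Kbar, (GAL.E.galF N σ : FN N →+* FN N) (algebraMap Kbar (FN N) a) =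
      algebraMap Kbar (FN N) a' := fun a => ⟨σ a, GAL.E.galF_algebraMap N σ a⟩
  refine ⟨?_, ?_⟩
  · have h := isIntegral_adjoin_map_iff_aux (A := Kbar) (P := FN N) (E := FN N) (bcBar N x)
      (GAL.E.galF N σ : FN N →+* FN N) hA hx hy.1
    have e : (GAL.E.galF N σ : FN N →+* FN N) (y ^ n * bcBar N u) =
        GAL.E.galF N σ y ^ n * bcBar N u := by
      rw [map_mul, map_pow]
      exact congrArg _ hu
    rwa [e] at h
  · have hx' : (GAL.E.galF N σ : FN N →+* FN N) (algebraMap (FN N) (FN N) (bcBar N x)⁻¹) =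
        algebraMap (FN N) (FN N) (bcBar N x)⁻¹ := by
      simp only [Algebra.algebraMap_self, RingHom.id_apply]
      rw [map_inv₀]
      exact congrArg _ hx
    have h := isIntegral_adjoin_map_iff_aux (A := Kbar) (P := FN N) (E := FN N) (bcBar N x)⁻¹
      (GAL.E.galF N σ : FN N →+* FN N) hA hx' hy.2
    have e : (GAL.E.galF N σ : FN N →+* FN N)
        (((algebraMap (FN N) (FN N) (bcBar N x))⁻¹ ^ k * y) ^ n * bcBar N u) =
        ((algebraMap (FN N) (FN N) (bcBar N x))⁻¹ ^ k * GAL.E.galF N σ y) ^ n * bcBar N u := by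
      simp only [Algebra.algebraMap_self, RingHom.id_apply]
      rw [map_mul, map_pow, map_mul, map_pow, map_inv₀]
      have hx2 : (GAL.E.galF N σ : FN N →+* FN N) (bcBar N x) = bcBar N x := hx
      have hu2 : (GAL.E.galF N σ : FN N →+* FN N) (bcBar N u) = bcBar N u := hu
      rw [hx2, hu2]
      rfl
    rwa [e] at h

/-- Abstract extraction lemma: independent elements of the span of the image of `S` can be replaced
by independent elements of `S`. -/
theorem exists_indep_KSec_descent_extract {K L V V' : Type*} [Field K] [Field L] [Algebra K L]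
    [AddCommGroup V] [Module K V] [AddCommGroup V'] [Module L V'] (φ : V →+ V')
    (hφ : ∀ (a : K) (f : V), φ (a • f) = algebraMap K L a • φ f) (S : Set V) (r : ℕ)
    (c : Fin r → V') (hc : LinearIndependent L c)
    (hmem : ∀ i, c i ∈ Submodule.span L (φ '' S)) :
    ∃ b : Fin r → V, LinearIndependent K b ∧ ∀ i, b i ∈ S := by
  classical
  obtain ⟨B, hBS, hBspan, hBli⟩ := exists_linearIndependent L (φ '' S)
  have hcB : ∀ i, c i ∈ Submodule.span L B := by
    intro i; rw [hBspan]; exact hmem i
  let c' : Fin r → Submodule.span L B := fun i => ⟨c i, hcB i⟩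
  have hc' : LinearIndependent L c' :=
    LinearIndependent.of_comp (Submodule.span L B).subtype hc
  have h1 := hc'.cardinal_lift_le_rank
  rw [rank_span_set hBli] at h1
  obtain ⟨e⟩ : Nonempty (Fin r ↪ B) := Cardinal.lift_mk_le'.1 h1
  have he : ∀ i, ∃ f ∈ S, φ f = (e i : V') := fun i => hBS (e i).2
  choose b hbS hb using he
  refine ⟨b, ?_, hbS⟩
  have hli : LinearIndependent L (fun i => φ (b i)) := by
    have := hBli.comp e e.injective
    convert this using 1
    funext i
    exact hb i
  rw [Fintype.linearIndependent_iff] at hli ⊢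
  intro g hg i
  have h2 := hli (fun i => algebraMap K L (g i)) (by
    have := congrArg φ hg
    rw [map_sum, map_zero] at this
    rw [← this]
    exact Finset.sum_congr rfl fun i _ => (hφ _ _).symm) i
  exact (algebraMap K L).injective (by rw [h2, map_zero])

theorem exists_indep_KSec_descent_smul {K : Type*} [Field K] (c : K) (z : LaurentSeries K) :
    c • z = algebraMap K (LaurentSeries K) c * z := by
  rw [algebraMap_laurentSeries_eq_single, HahnSeries.single_zero_mul_eq_smul]

/-- LEMMA T: transcendence is preserved by the base change. -/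
theorem exists_indep_KSec_descent_transc (x : FK K N) (hx : Transcendental K x) :
    Transcendental Kbar (bcBar N x) := by
  have h1 : Transcendental K (x : LaurentSeries K) := by
    intro h
    exact hx ((isAlgebraic_algHom_iff (FK K N).val (FK K N).val.injective).1 h)
  have h2 : AlgebraicIndependent K (fun _ : Unit => (x : LaurentSeries K)) :=
    algebraicIndependent_unique_type_iff.2 h1
  have h3 := algebraicIndependent_coeffMap (L' := Kbar) h2
  have h4 : Transcendental Kbar (coeffMap (algebraMap K Kbar) (x : LaurentSeries K)) :=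
    algebraicIndependent_unique_type_iff.1 h3
  intro h
  exact h4 ((isAlgebraic_algHom_iff (modularFunctionFieldBar N).val
    (modularFunctionFieldBar N).val.injective).2 h)

/-- `FK K N` as a `K`-subspace (for the coefficientwise module structure). -/
def existsIndepKSecDescentV : Submodule K (LaurentSeries K) where
  carrier := FK K N
  add_mem' := add_mem
  zero_mem' := zero_mem _
  smul_mem' c z hz := by
    rw [exists_indep_KSec_descent_smul]
    exact mul_mem ((FK K N).algebraMap_mem c) hz

/-- The inclusion of `FN N` as a linear map (for the coefficientwise module structure). -/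
def existsIndepKSecDescentι : FN N →ₗ[Kbar] LaurentSeries Kbar where
  toFun y := (y : LaurentSeries Kbar)
  map_add' _ _ := rfl
  map_smul' a y := by
    rw [RingHom.id_apply, exists_indep_KSec_descent_smul, Algebra.smul_def]
    rfl

/-- R3f: **descent**: independent elements of `KSec` over `ℚ̄` can be replaced by independent elements
defined over `K`. -/
theorem exists_indep_KSec_descent [NeZero N] (x : FK K N) (hx : Transcendental K x) (n : ℕ)
    (hn : 0 < n) (u : FK K N) (hu0 : u ≠ 0) (hu : GAL.E.IsKum N n (bcBar N u)) (k : ℕ) (r : ℕ)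
    (c : Fin r → FN N) (hc : LinearIndependent Kbar c)
    (hmem : ∀ i, c i ∈ KSec Kbar (FN N) (bcBar N x) n (bcBar N u) k) :
    ∃ b : Fin r → FK K N, LinearIndependent K b ∧ ∀ i, b i ∈ KSec K (FK K N) x n u k := by
  have : FF.IsFF1 Kbar (FN N) := S24.Export.isFF1 N
  have : IsScalarTower ℚ K Kbar := IsScalarTower.of_algebraMap_eq' (Subsingleton.elim _ _)
  have : Algebra.IsAlgebraic ℚ Kbar := AlgebraicClosure.isAlgebraic ℚ
  have : Algebra.IsAlgebraic K Kbar := Algebra.IsAlgebraic.tower_top (K := ℚ) K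
  have : CharZero K := algebraRat.charZero K
  have hxT := exists_indep_KSec_descent_transc N x hx
  have hu0' : bcBar N u ≠ 0 := by
    intro h
    exact hu0 ((bcBar (K := K) N).injective (by rw [h, map_zero]))
  have hR : ∀ y : FN N, y ∈ riemannRochSpace (S34.Nodal.kumDiv (K := Kbar) n (bcBar N u)
      (bcBar N x) k) ↔ y ∈ KSec Kbar (FN N) (bcBar N x) n (bcBar N u) k :=
    mem_riemannRochSpace_kumDiv_iff_mem_KSec hn hu0' hxT hu k
  set R := riemannRochSpace (S34.Nodal.kumDiv (K := Kbar) n (bcBar N u) (bcBar N x) k) with hRdef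
  set ι : FN N →ₗ[Kbar] LaurentSeries Kbar := existsIndepKSecDescentι N with hιdef
  have hι : Function.Injective ι := Subtype.val_injective
  set W : Submodule Kbar (LaurentSeries Kbar) := R.map ι with hWdef
  set V : Submodule K (LaurentSeries K) := existsIndepKSecDescentV N with hVdef
  have hW : ∀ (σ : Kbar ≃ₐ[K] Kbar) (z : LaurentSeries Kbar), z ∈ W →
      coeffMap (σ : Kbar →+* Kbar) z ∈ W := by
    rintro σ _ ⟨y, hy, rfl⟩
    refine ⟨GAL.E.galF N (σ.restrictScalars ℚ) y, ?_, ?_⟩
    · exact (hR _).2 (galF_mem_KSec N x n u k (σ.restrictScalars ℚ) (fun a => σ.commutes a)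
        ((hR y).1 hy))
    · exact GAL.E.coe_galF N (σ.restrictScalars ℚ) y
  refine exists_indep_KSec_descent_extract (K := K) (L := Kbar) (bcBar (K := K) N).toAddMonoidHom
    ?_ (KSec K (FK K N) x n u k) r c hc ?_
  · intro a f
    show bcBar N (a • f) = algebraMap K Kbar a • bcBar N f
    rw [Algebra.smul_def, Algebra.smul_def, map_mul, baseChangeMap_algebraMap]
  · intro i
    have h1 : ι (c i) ∈ Submodule.span Kbar
        (⇑(coeffMap (algebraMap K Kbar)) '' (V : Set (LaurentSeries K))) := by
      have h := Submodule.mem_map_of_mem (f := ι) (mem_span_bcBar (K := K) N (c i))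
      rw [Submodule.map_span] at h
      refine Submodule.span_mono ?_ h
      rintro _ ⟨_, ⟨f, rfl⟩, rfl⟩
      exact ⟨(f : LaurentSeries K), f.2, rfl⟩
    have h2 : ι (c i) ∈ W := Submodule.mem_map_of_mem ((hR _).2 (hmem i))
    have h3 := galois_descent_series V W hW h1 h2
    have h4 : ι (c i) ∈ (Submodule.span Kbar
        ((bcBar (K := K) N).toAddMonoidHom '' (KSec K (FK K N) x n u k))).map ι := by
      rw [Submodule.map_span]
      refine Submodule.span_mono ?_ h3
      rintro _ ⟨f, ⟨hfV, hfW⟩, rfl⟩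
      obtain ⟨y, hy, hyf⟩ := hfW
      have hy' : y = bcBar N (⟨f, hfV⟩ : FK K N) := hι hyf
      refine ⟨bcBar N (⟨f, hfV⟩ : FK K N), ⟨⟨f, hfV⟩, ?_, rfl⟩, rfl⟩
      rw [← mem_KSec_bcBar_iff, ← hy']
      exact (hR y).1 hy
    obtain ⟨y, hy, hyc⟩ := h4
    rw [← hι hyc]
    exact hy

/-- **R3**: the comparison of dimensions on the generic fibre over `K`. -/
theorem riemK_of_isKum [NeZero N] (x : FK K N) (hx : Transcendental K x) (n : ℕ) (hn : 0 < n)
    (u : FK K N) (hu0 : u ≠ 0) (hu : GAL.E.IsKum N n (bcBar N u)) :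
    RiemK K (FK K N) x n u := by
  have : FF.IsFF1 Kbar (FN N) := S24.Export.isFF1 N
  have hxT := exists_indep_KSec_descent_transc N x hx
  have hu0' : bcBar N u ≠ 0 := by
    intro h
    exact hu0 ((bcBar (K := K) N).injective (by rw [h, map_zero]))
  obtain ⟨k₀, hk₀⟩ := exists_forall_indep_KSec (K := Kbar) (F := FN N) hxT
  refine ⟨k₀, fun k hk r c hc hmem => ?_⟩
  obtain ⟨b', hb', hb'mem⟩ := hk₀ k hk n hn 1 (bcBar N u) one_ne_zero hu0'
    (GAL.E.isKum_one N n) hu r (fun i => bcBar N (c i)) (linearIndependent_bcBar N hc)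
    (fun i => by
      have h := (mem_KSec_bcBar_iff N x n 1 k (c i)).2 (hmem i)
      rwa [map_one] at h)
  exact exists_indep_KSec_descent N x hx n hn u hu0 hu k r b' hb' hb'mem

end Fermat.Agent.Nodal

end
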